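import Mathlib

/-!
# Kruskal's tree theorem

Finite labelled rooted trees, seen as finite orders with a least element whose lower sets are
chains, are well-quasi-ordered by embeddings which preserve infima (Nash-Williams's proof).
-/

set_option autoImplicit false

noncomputable section

namespace FA.KruskalTree

open Finset
open scoped Classical

/-- A finite labelled rooted tree on `Fin size`. -/
structure FTree (Q : Type*) where
  /-- Number of vertices. -/
  size : ℕ
  /-- The ancestor order. -/
  ord : Fin size → Fin size → Prop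
  ord_refl : ∀ x, ord x x
  ord_trans : ∀ x y z, ord x y → ord y z → ord x z
  ord_antisymm : ∀ x y, ord x y → ord y x → x = y
  /-- The root. -/
  root : Fin size
  root_le : ∀ x, ord root x
  chain : ∀ x y z, ord x z → ord y z → ord x y ∨ ord y x
  /-- The labels. -/
  lab : Fin size → Q

variable {Q : Type*} (r : Q → Q → Prop)

/-- `z` is the infimum of `x` and `y`. -/
def IsInf (t : FTree Q) (x y z : Fin t.size) : Prop :=
  ∀ w, t.ord w z ↔ t.ord w x ∧ t.ord w y

/-- Label-increasing embeddings which preserve infima. -/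
def Emb (s t : FTree Q) : Prop :=
  ∃ f : Fin s.size → Fin t.size, (∀ x, r (s.lab x) (t.lab (f x))) ∧
    (∀ x y, s.ord x y ↔ t.ord (f x) (f y)) ∧
    ∀ x y z, IsInf s x y z → IsInf t (f x) (f y) (f z)

variable {r}

lemma Emb.refl [Std.Refl r] (t : FTree Q) : Emb r t t :=
  ⟨id, fun _ => Std.Refl.refl _, fun _ _ => Iff.rfl, fun _ _ _ h => h⟩

lemma Emb.trans [IsTrans Q r] {a b c : FTree Q} (h : Emb r a b) (h' : Emb r b c) : Emb r a c := by
  obtain ⟨f, f1, f2, f3⟩ := h
  obtain ⟨g, g1, g2, g3⟩ := h'
  exact ⟨g ∘ f, fun x => IsTrans.trans _ _ _ (f1 x) (g1 (f x)),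
    fun x y => (f2 x y).trans (g2 _ _), fun x y z hz => g3 _ _ _ (f3 x y z hz)⟩

variable (t : FTree Q)

/-- The vertices above `x`. -/
def upSet (x : Fin t.size) : Finset (Fin t.size) := univ.filter fun y => t.ord x y

lemma mem_upSet {x y : Fin t.size} : y ∈ upSet t x ↔ t.ord x y := by
  simp [upSet]

/-- Enumeration of the vertices above `x`. -/
def iota (x : Fin t.size) (i : Fin (upSet t x).card) : Fin t.size := ((upSet t x).equivFin.symm i).1

lemma iota_injective (x : Fin t.size) : Function.Injective (iota t x) :=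
  fun _ _ h => (upSet t x).equivFin.symm.injective (Subtype.ext h)

lemma ord_iota (x : Fin t.size) (i : Fin (upSet t x).card) : t.ord x (iota t x i) :=
  (mem_upSet t).1 ((upSet t x).equivFin.symm i).2

lemma exists_iota {x y : Fin t.size} (h : t.ord x y) : ∃ i, iota t x i = y :=
  ⟨(upSet t x).equivFin ⟨y, (mem_upSet t).2 h⟩, by simp [iota]⟩

/-- The subtree above `x`. -/
def sub (x : Fin t.size) : FTree Q where
  size := (upSet t x).card
  ord a b := t.ord (iota t x a) (iota t x b)
  ord_refl _ := t.ord_refl _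
  ord_trans _ _ _ := t.ord_trans _ _ _
  ord_antisymm _ _ h h' := iota_injective t x (t.ord_antisymm _ _ h h')
  root := (upSet t x).equivFin ⟨x, (mem_upSet t).2 (t.ord_refl x)⟩
  root_le a := by
    have e : iota t x ((upSet t x).equivFin ⟨x, (mem_upSet t).2 (t.ord_refl x)⟩) = x := by
      simp [iota]
    rw [e]
    exact ord_iota t x a
  chain _ _ _ := t.chain _ _ _
  lab a := t.lab (iota t x a)

lemma sub_size_lt {x : Fin t.size} (hx : x ≠ t.root) : (sub t x).size < t.size := by
  refine lt_of_lt_of_le (card_lt_card (s := upSet t x) (t := univ) ?_) (by simp)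
  rw [ssubset_univ_iff, Ne, eq_univ_iff_forall, not_forall]
  exact ⟨t.root, fun h => hx (t.ord_antisymm _ _ ((mem_upSet t).1 h) (t.root_le x))⟩

lemma isInf_iota {x : Fin t.size} {a b c : Fin (sub t x).size} (h : IsInf (sub t x) a b c) :
    IsInf t (iota t x a) (iota t x b) (iota t x c) := by
  intro w
  constructor
  · intro hw
    have := (h c).1 (t.ord_refl _)
    exact ⟨t.ord_trans _ _ _ hw this.1, t.ord_trans _ _ _ hw this.2⟩
  · rintro ⟨h1, h2⟩
    rcases t.chain w x _ h1 (ord_iota t x a) with hwx | hxw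
    · exact t.ord_trans _ _ _ hwx (ord_iota t x c)
    · obtain ⟨i, rfl⟩ := exists_iota t hxw
      exact (h i).2 ⟨h1, h2⟩

lemma emb_sub [Std.Refl r] (x : Fin t.size) : Emb r (sub t x) t :=
  ⟨iota t x, fun _ => Std.Refl.refl _, fun _ _ => Iff.rfl, fun _ _ _ h => isInf_iota t h⟩

/-- An embedding of subtrees as a map of the vertices of the trees. -/
lemma exists_lift {s t : FTree Q} {c : Fin s.size} {d : Fin t.size}
    (h : Emb r (sub s c) (sub t d)) :
    ∃ g : Fin s.size → Fin t.size,
      (∀ y, s.ord c y → t.ord d (g y) ∧ r (s.lab y) (t.lab (g y))) ∧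
      (∀ y z, s.ord c y → s.ord c z → (s.ord y z ↔ t.ord (g y) (g z))) ∧
      ∀ x y z, s.ord c x → s.ord c y → s.ord c z → IsInf s x y z →
        IsInf t (g x) (g y) (g z) := by
  obtain ⟨F, h1, h2, h3⟩ := h
  let inv : ∀ y, s.ord c y → Fin (sub s c).size := fun y hy => (exists_iota s hy).choose
  have hinv : ∀ y hy, iota s c (inv y hy) = y := fun y hy => (exists_iota s hy).choose_spec
  let g : Fin s.size → Fin t.size := fun y =>
    if hy : s.ord c y then iota t d (F (inv y hy)) else t.root
  have hg : ∀ y hy, g y = iota t d (F (inv y hy)) := fun y hy => dif_pos hy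
  refine ⟨g, fun y hy => ?_, fun y z hy hz => ?_, fun x y z hx hy hz hinf => ?_⟩
  · rw [hg y hy]
    refine ⟨ord_iota t d _, ?_⟩
    conv => arg 1; rw [← hinv y hy]
    exact h1 (inv y hy)
  · rw [hg y hy, hg z hz]
    conv_lhs => rw [← hinv y hy, ← hinv z hz]
    exact h2 _ _
  · rw [hg x hx, hg y hy, hg z hz]
    refine isInf_iota t (h3 _ _ _ fun w => ?_)
    have := hinf (iota s c w)
    rw [← hinv x hx, ← hinv y hy, ← hinv z hz] at this
    exact this

/-- The children of the root. -/
def IsChild (c : Fin t.size) : Prop := c ≠ t.root ∧ ∀ w, t.ord w c → w = t.root ∨ w = c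

/-- The list of the children. -/
def kidNodes : List (Fin t.size) := (univ.filter fun c => IsChild t c).toList

lemma mem_kidNodes {c : Fin t.size} : c ∈ kidNodes t ↔ IsChild t c := by
  simp [kidNodes]

lemma exists_child {y : Fin t.size} (hy : y ≠ t.root) : ∃ c, IsChild t c ∧ t.ord c y := by
  let S : Finset (Fin t.size) := univ.filter fun w => t.ord w y ∧ w ≠ t.root
  obtain ⟨c, hc, hmin⟩ := exists_min_image S (fun w => (univ.filter fun z => t.ord z w).card)
    ⟨y, by simp [S, t.ord_refl, hy]⟩
  simp only [S, mem_filter, mem_univ, true_and] at hc hmin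
  refine ⟨c, ⟨hc.2, fun w hw => ?_⟩, hc.1⟩
  by_contra hne
  push Not at hne
  have hlt : (univ.filter fun z => t.ord z w).card < (univ.filter fun z => t.ord z c).card := by
    refine card_lt_card (ssubset_iff_of_subset ?_ |>.2 ⟨c, ?_, ?_⟩)
    · intro z hz
      simp only [mem_filter, mem_univ, true_and] at hz ⊢
      exact t.ord_trans _ _ _ hz hw
    · simp [t.ord_refl]
    · simp only [mem_filter, mem_univ, true_and]
      exact fun h => hne.2 (t.ord_antisymm _ _ hw h)
  exact absurd (hmin w ⟨t.ord_trans _ _ _ hw hc.1, hne.1⟩) (not_le.2 hlt)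

lemma child_unique {c c' y : Fin t.size} (hc : IsChild t c) (hc' : IsChild t c') (h : t.ord c y)
    (h' : t.ord c' y) : c = c' := by
  rcases t.chain c c' y h h' with h1 | h1
  · exact (hc'.2 c h1).resolve_left hc.1
  · exact ((hc.2 c' h1).resolve_left hc'.1).symm

/-- From an embedding of lists to an injective matching of members. -/
lemma exists_inj_of_sublistForall₂ {α β γ : Type*} {R : γ → γ → Prop} {g₁ : α → γ} {g₂ : β → γ}
    {l₁ : List α} {l₂ : List β} (hn : l₂.Nodup)
    (h : List.SublistForall₂ R (l₁.map g₁) (l₂.map g₂)) :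
    ∃ d : {a // a ∈ l₁} → {b // b ∈ l₂}, Function.Injective d ∧
      ∀ a, R (g₁ a.1) (g₂ (d a).1) := by
  obtain ⟨l, hl, hsub⟩ := List.sublistForall₂_iff.1 h
  obtain ⟨φ, hφ⟩ := List.sublist_iff_exists_fin_orderEmbedding_get_eq.1 hsub
  obtain ⟨hlen, hget⟩ := List.forall₂_iff_get.1 hl
  rw [List.length_map] at hlen
  let idx : {a // a ∈ l₁} → Fin l.length := fun a =>
    ⟨l₁.idxOf a.1, hlen ▸ List.idxOf_lt_length_iff.2 a.2⟩
  have hidx : Function.Injective idx := by
    intro a b hab
    have h1 : l₁.idxOf a.1 = l₁.idxOf b.1 := congrArg Fin.val hab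
    exact Subtype.ext ((List.idxOf_inj a.2).1 h1)
  let pos : {a // a ∈ l₁} → Fin l₂.length := fun a =>
    ⟨(φ (idx a)).val, (φ (idx a)).isLt.trans_eq (List.length_map _)⟩
  have hpos : Function.Injective pos := by
    intro a b hab
    exact hidx (φ.injective (Fin.ext (congrArg Fin.val hab :)))
  refine ⟨fun a => ⟨l₂.get (pos a), List.get_mem _ _⟩, fun a b hab => ?_, fun a => ?_⟩
  · exact hpos ((List.nodup_iff_injective_get.1 hn) (congrArg Subtype.val hab))
  · have h1 : l₁.idxOf a.1 < l₁.length := List.idxOf_lt_length_iff.2 a.2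
    have := hget (l₁.idxOf a.1) (by simpa using h1) (hlen ▸ h1)
    rw [show l.get ⟨l₁.idxOf a.1, hlen ▸ h1⟩ = _ from hφ (idx a)] at this
    simpa [pos] using this

/-- Gluing embeddings of the children. -/
lemma emb_of_kids {s t : FTree Q} (hroot : r (s.lab s.root) (t.lab t.root))
    (hk : List.SublistForall₂ (Emb r) ((kidNodes s).map (sub s)) ((kidNodes t).map (sub t))) :
    Emb r s t := by
  obtain ⟨d, hd, hE⟩ := exists_inj_of_sublistForall₂ (nodup_toList _) hk
  choose g hg1 hg2 hg3 using fun a => exists_lift (hE a)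
  choose ch hch1 hch2 using fun y (hy : y ≠ s.root) => exists_child s hy
  let K : ∀ y, y ≠ s.root → {a // a ∈ kidNodes s} := fun y hy =>
    ⟨ch y hy, (mem_kidNodes s).2 (hch1 y hy)⟩
  have hKeq : ∀ (a : {a // a ∈ kidNodes s}) y hy, s.ord a.1 y → K y hy = a := fun a y hy h =>
    Subtype.ext (child_unique s (hch1 y hy) ((mem_kidNodes s).1 a.2) (hch2 y hy) h)
  have hdchild : ∀ a, IsChild t (d a).1 := fun a => (mem_kidNodes t).1 (d a).2
  let f : Fin s.size → Fin t.size := fun y =>
    if hy : y = s.root then t.root else g (K y hy) y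
  have froot : f s.root = t.root := dif_pos rfl
  have fne : ∀ y (hy : y ≠ s.root), f y = g (K y hy) y := fun y hy => dif_neg hy
  have habove : ∀ y (hy : y ≠ s.root), t.ord (d (K y hy)).1 (f y) := by
    intro y hy
    rw [fne y hy]
    exact (hg1 (K y hy) y (hch2 y hy)).1
  have fne_root : ∀ y, y ≠ s.root → f y ≠ t.root := by
    intro y hy h
    have := habove y hy
    rw [h] at this
    exact (hdchild _).1 (t.ord_antisymm _ _ this (t.root_le _))
  have sameChild : ∀ y z (hy : y ≠ s.root) (hz : z ≠ s.root) w,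
      w ≠ t.root → t.ord w (f y) → t.ord w (f z) → K y hy = K z hz := by
    intro y z hy hz w hw h1 h2
    obtain ⟨c, hc, hcw⟩ := exists_child t hw
    refine hd (Subtype.ext ?_)
    rw [child_unique t (hdchild _) hc (habove y hy) (t.ord_trans _ _ _ hcw h1),
      child_unique t (hdchild _) hc (habove z hz) (t.ord_trans _ _ _ hcw h2)]
  refine ⟨f, fun y => ?_, fun y z => ?_, fun x y z hinf => ?_⟩
  · by_cases hy : y = s.root
    · subst hy
      rw [froot]
      exact hroot
    · rw [fne y hy]
      exact (hg1 _ y (hch2 y hy)).2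
  · by_cases hy : y = s.root
    · subst hy
      exact iff_of_true (s.root_le z) (froot ▸ t.root_le _)
    by_cases hz : z = s.root
    · subst hz
      refine iff_of_false (fun h => hy (s.ord_antisymm _ _ h (s.root_le y))) fun h => ?_
      rw [froot] at h
      exact fne_root y hy (t.ord_antisymm _ _ h (t.root_le _))
    constructor
    · intro h
      have e : K z hz = K y hy := hKeq _ z hz (s.ord_trans _ _ _ (hch2 y hy) h)
      rw [fne y hy, fne z hz, e]
      exact (hg2 _ y z (hch2 y hy) (e ▸ hch2 z hz)).1 h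
    · intro h
      have e : K z hz = K y hy :=
        sameChild z y hz hy (f y) (fne_root y hy) h (t.ord_refl _)
      rw [fne y hy, fne z hz, e] at h
      have hcz : s.ord (K y hy).1 z := e ▸ hch2 z hz
      exact (hg2 _ y z (hch2 y hy) hcz).2 h
  · have hzxy := (hinf z).1 (s.ord_refl z)
    by_cases hx : x = s.root
    · have hz : z = s.root := by
        rw [hx] at hzxy
        exact s.ord_antisymm _ _ hzxy.1 (s.root_le z)
      rw [hx, hz, froot]
      exact fun w => ⟨fun h => ⟨h, t.ord_trans _ _ _ h (t.root_le _)⟩, fun h => h.1⟩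
    by_cases hy : y = s.root
    · have hz : z = s.root := by
        rw [hy] at hzxy
        exact s.ord_antisymm _ _ hzxy.2 (s.root_le z)
      rw [hy, hz, froot]
      exact fun w => ⟨fun h => ⟨t.ord_trans _ _ _ h (t.root_le _), h⟩, fun h => h.2⟩
    by_cases hsame : K x hx = K y hy
    · have hcy : s.ord (K x hx).1 y := hsame ▸ hch2 y hy
      have hcz : s.ord (K x hx).1 z := (hinf _).2 ⟨hch2 x hx, hcy⟩
      have hz : z ≠ s.root := by
        rintro rfl
        exact (hch1 x hx).1 (s.ord_antisymm _ _ hcz (s.root_le _))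
      rw [fne x hx, fne y hy, fne z hz, hKeq _ z hz hcz, ← hsame]
      exact hg3 _ x y z (hch2 x hx) hcy hcz hinf
    · have hz : z = s.root := by
        by_contra hz
        exact hsame ((hKeq (K z hz) x hx (s.ord_trans _ _ _ (hch2 z hz) hzxy.1)).trans
          (hKeq (K z hz) y hy (s.ord_trans _ _ _ (hch2 z hz) hzxy.2)).symm)
      rw [hz, froot]
      intro w
      refine ⟨fun h => ⟨t.ord_trans _ _ _ h (t.root_le _), t.ord_trans _ _ _ h (t.root_le _)⟩, ?_⟩
      rintro ⟨h1, h2⟩
      by_contra hw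
      exact hsame (sameChild x y hx hy w (fun e => hw (e ▸ t.ord_refl _)) h1 h2)

/-- **Kruskal's tree theorem** for trees on `Fin size`. -/
theorem wellQuasiOrdered_emb [IsPreorder Q r] (hr : WellQuasiOrdered r) :
    WellQuasiOrdered (Emb r : FTree Q → FTree Q → Prop) := by
  have : IsPreorder (FTree Q) (Emb r) :=
    { refl := fun t => Emb.refl t, trans := fun _ _ _ h h' => Emb.trans h h' }
  rw [← Set.partiallyWellOrderedOn_univ_iff,
    Set.PartiallyWellOrderedOn.iff_not_exists_isMinBadSeq FTree.size]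
  rintro ⟨f, hbad, hmin⟩
  let U : Set (FTree Q) := {u | ∃ n x, x ≠ (f n).root ∧ u = sub (f n) x}
  have hU : U.PartiallyWellOrderedOn (Emb r) := by
    rw [Set.partiallyWellOrderedOn_iff_exists_lt]
    intro u hu
    choose N x hx hux using hu
    obtain ⟨k₀, hk₀⟩ : ∃ k₀, ∀ k, N k₀ ≤ N k := ⟨Function.argmin N, fun k => Function.argmin_le N k⟩
    by_contra hnone
    push Not at hnone
    refine hmin (N k₀) (fun n => if n < N k₀ then f n else u (k₀ + (n - N k₀)))
      (fun m hm => (if_pos hm).symm) ?_ ⟨fun _ => trivial, fun i j hij hE => ?_⟩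
    · simp only [lt_irrefl, if_false, Nat.sub_self, Nat.add_zero, hux k₀]
      exact sub_size_lt _ (hx k₀)
    · dsimp only at hE
      split_ifs at hE with hi hj
      · exact hbad.2 i j hij hE
      · have hNk := hk₀ (k₀ + (j - N k₀))
        rw [hux] at hE
        exact hbad.2 i _ (by omega) (Emb.trans hE (emb_sub _ _))
      · omega
      · exact hnone (k₀ + (i - N k₀)) (k₀ + (j - N k₀)) (by omega) hE
  obtain ⟨g, hg⟩ := hr.exists_monotone_subseq fun n => (f n).lab (f n).root
  have hH := Set.PartiallyWellOrderedOn.partiallyWellOrderedOn_sublistForall₂ (Emb r) hU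
  obtain ⟨i, j, hij, hkids⟩ := hH.exists_lt (f := fun n => (kidNodes (f (g n))).map (sub (f (g n))))
    (fun n u hu => by
      obtain ⟨c, hc, rfl⟩ := List.mem_map.1 hu
      exact ⟨g n, c, ((mem_kidNodes _).1 hc).1, rfl⟩)
  exact hbad.2 _ _ (g.strictMono hij) (emb_of_kids (hg i j hij.le) hkids)

/-- Trees up to a given size, without labels, are finite in number. -/
lemma finite_size_le (B : ℕ) : {t : FTree PUnit.{1} | t.size ≤ B}.Finite := by
  let enc : {t : FTree PUnit.{1} // t.size ≤ B} →
      Σ n : Fin (B + 1), (Fin n.val → Fin n.val → Prop) × Fin n.val :=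
    fun t => ⟨⟨t.1.size, Nat.lt_succ_of_le t.2⟩, t.1.ord, t.1.root⟩
  have henc : Function.Injective enc := by
    rintro ⟨⟨n, o, _, _, _, rt, _, _, l⟩, hn⟩ ⟨⟨n', o', _, _, _, rt', _, _, l'⟩, hn'⟩ h
    simp only [enc, Sigma.mk.injEq, Fin.mk.injEq] at h
    obtain ⟨rfl, h2⟩ := h
    simp only [heq_eq_eq, Prod.mk.injEq] at h2
    obtain ⟨rfl, rfl⟩ := h2
    obtain rfl : l = l' := Subsingleton.elim _ _
    rfl
  exact Set.finite_coe_iff.1 (Finite.of_injective enc henc)

/-- **Friedman's finite form**: there is a bound on the length of bad sequences of trees whose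
sizes grow at most like `i + k`. -/
theorem finite_form (k : ℕ) : ∃ N, ∀ T : Fin N → FTree PUnit.{1}, (∀ i, (T i).size ≤ i.val + k) →
    ∃ i j, i < j ∧ Emb (fun _ _ => True) (T i) (T j) := by
  by_contra hno
  push Not at hno
  choose T hsize hbad using hno
  let F : ℕ → ℕ → Option (FTree PUnit.{1}) := fun i N => if h : i < N then some (T N ⟨i, h⟩) else none
  let U := Filter.hyperfilter ℕ
  have hbig : ∀ i, {N : ℕ | i < N} ∈ U := fun i =>
    Filter.mem_hyperfilter_of_finite_compl ((Set.finite_Iic i).subset fun N hN => by simpa using hN)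
  have hpick : ∀ i, ∃ t, {N | F i N = some t} ∈ U := by
    intro i
    have hcover : (⋃ t ∈ {t : FTree PUnit.{1} | t.size ≤ i + k}, {N | F i N = some t}) ∈ U := by
      refine Filter.mem_of_superset (hbig i) fun N hN => ?_
      simp only [Set.mem_iUnion, exists_prop]
      exact ⟨_, hsize N ⟨i, hN⟩, dif_pos hN⟩
    obtain ⟨t, -, ht⟩ := (Ultrafilter.finite_biUnion_mem_iff (finite_size_le (i + k))).1 hcover
    exact ⟨t, ht⟩
  choose S hS using hpick
  have : IsPreorder PUnit.{1} (fun _ _ => True) := { refl := fun _ => trivial, trans := fun _ _ _ _ _ => trivial }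
  obtain ⟨i, j, hij, hE⟩ := wellQuasiOrdered_emb (r := fun _ _ : PUnit.{1} => True)
    (fun _ => ⟨0, 1, Nat.zero_lt_one, trivial⟩) S
  obtain ⟨N, hN1, hN2⟩ := U.nonempty_of_mem (Filter.inter_mem (hS i) (hS j))
  simp only [F, Set.mem_ofPred_eq] at hN1 hN2
  split_ifs at hN1 with h1
  split_ifs at hN2 with h2
  · rw [Option.some.injEq] at hN1 hN2
    rw [← hN1, ← hN2] at hE
    exact hbad N ⟨i, h1⟩ ⟨j, h2⟩ hij hE

end FA.KruskalTree
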